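/-
P-S58 row 1103 (S58-INV), helper73: mini Artin–Schreier.
An involution `c ≠ 1` of an algebraically closed field of characteristic `≠ 2` inverts every
root of unity of odd order.  (Mathlib only.)
-/
import Mathlib

set_option autoImplicit false
set_option linter.unusedSectionVars false

namespace Fermat.Agent.H73.S58

open Finset

section Core

variable {F : Type*} [Field F] [IsAlgClosed F] (c : F ≃+* F)

/-- an anti-invariant element -/
theorem inv_exists_anti (hc : ∀ x, c (c x) = x) (hne : ∃ x, c x ≠ x) :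
    ∃ u : F, u ≠ 0 ∧ c u = -u := by
  obtain ⟨x, hx⟩ := hne
  refine ⟨x - c x, ?_, ?_⟩
  · intro h
    exact hx (sub_eq_zero.1 h).symm
  · rw [map_sub, hc]
    ring

/-- `c` negates the square roots of `-1`. -/
theorem inv_map_sqrt_neg_one (hc : ∀ x, c (c x) = x) (hne : ∃ x, c x ≠ x) (i : F)
    (hi : i * i = -1) : c i = -i := by
  obtain ⟨u, hu0, hu⟩ := inv_exists_anti c hc hne
  obtain ⟨w, hw⟩ := IsAlgClosed.exists_eq_mul_self u
  have hw0 : w ≠ 0 := by
    rintro rfl
    exact hu0 (by rw [hw, mul_zero])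
  have hcw0 : c w ≠ 0 := by
    intro h
    exact hw0 ((map_eq_zero_iff c c.injective).1 h)
  have hcww : c w * c w = -(w * w) := by
    rw [← map_mul, ← hw, hu]
  set r : F := c w / w with hr
  have hrr : r * r = -1 := by
    rw [hr, div_mul_div_comm, hcww]
    field_simp
  have hcr : c r = -r := by
    have h1 : c r = w / c w := by
      rw [hr, map_div₀, hc]
    rw [h1, hr, div_eq_iff hcw0, neg_mul, div_mul_eq_mul_div, hcww]
    field_simp
  rcases mul_self_eq_mul_self_iff.1 (hi.trans hrr.symm) with h | h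
  · rw [h, hcr]
  · rw [h, map_neg, hcr, neg_neg]

/-- a sum of two invariant squares is an invariant square -/
theorem inv_sq_add_sq (hc : ∀ x, c (c x) = x) (hne : ∃ x, c x ≠ x) (a b : F)
    (ha : c a = a) (hb : c b = b) : ∃ s : F, c s = s ∧ s * s = a * a + b * b := by
  obtain ⟨i, hi⟩ := IsAlgClosed.exists_eq_mul_self (-1 : F)
  have hci := inv_map_sqrt_neg_one c hc hne i hi.symm
  obtain ⟨z, hz⟩ := IsAlgClosed.exists_eq_mul_self (a + b * i)
  refine ⟨z * c z, ?_, ?_⟩
  · rw [map_mul, hc, mul_comm]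
  · have h1 : c z * c z = a - b * i := by
      rw [← map_mul, ← hz, map_add, map_mul, ha, hb, hci]
      ring
    calc z * c z * (z * c z) = (z * z) * (c z * c z) := by ring
      _ = (a + b * i) * (a - b * i) := by rw [← hz, h1]
      _ = a * a - b * b * (i * i) := by ring
      _ = a * a + b * b := by rw [← hi]; ring

/-- a finite sum of invariant squares is an invariant square -/
theorem inv_sum_sq (hc : ∀ x, c (c x) = x) (hne : ∃ x, c x ≠ x) (f : ℕ → F)
    (hf : ∀ k, c (f k) = f k) (n : ℕ) :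
    ∃ s : F, c s = s ∧ s * s = ∑ k ∈ range n, f k * f k := by
  induction n with
  | zero => exact ⟨0, map_zero c, by simp⟩
  | succ n ih =>
    obtain ⟨s, hs, hss⟩ := ih
    obtain ⟨s', hs', hss'⟩ := inv_sq_add_sq c hc hne s (f n) hs (hf n)
    exact ⟨s', hs', by rw [hss', hss, Finset.sum_range_succ]⟩

/-- `-1` is not an invariant square -/
theorem inv_not_sq_neg_one (h2 : (2 : F) ≠ 0) (hc : ∀ x, c (c x) = x) (hne : ∃ x, c x ≠ x)
    (s : F) (hs : c s = s) : s * s ≠ -1 := by
  intro hss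
  have h := inv_map_sqrt_neg_one c hc hne s hss
  rw [hs] at h
  have h0 : s = 0 := by
    have : (2 : F) * s = 0 := by
      rw [two_mul]
      nth_rewrite 1 [h]
      exact neg_add_cancel s
    rcases mul_eq_zero.1 this with h' | h'
    · exact absurd h' h2
    · exact h'
  rw [h0, mul_zero] at hss
  exact one_ne_zero (neg_eq_zero.1 hss.symm)

/-- an invariant root of unity of odd order is trivial -/
theorem inv_fixed_root_eq_one (h2 : (2 : F) ≠ 0) (hc : ∀ x, c (c x) = x) (hne : ∃ x, c x ≠ x)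
    (p : ℕ) (hp : p % 2 = 1) (ξ : F) (hξ : ξ ^ p = 1) (hcξ : c ξ = ξ) : ξ = 1 := by
  by_contra h1
  set η : F := ξ ^ ((p + 1) / 2) with hη
  have hcη : ∀ k : ℕ, c (η ^ (k + 1)) = η ^ (k + 1) := by
    intro k
    rw [hη, map_pow, map_pow, hcξ]
  have hηη : ∀ k : ℕ, η ^ k * η ^ k = ξ ^ k := by
    intro k
    rw [hη, ← pow_mul, ← pow_add, ← two_mul, ← mul_assoc,
      show 2 * ((p + 1) / 2) = p + 1 by omega, pow_mul, pow_succ, hξ, one_mul]
  have hgeom : ∑ k ∈ range p, ξ ^ k = 0 := by
    have h := geom_sum_mul ξ p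
    rw [hξ, sub_self] at h
    rcases mul_eq_zero.1 h with h' | h'
    · exact h'
    · exact absurd (sub_eq_zero.1 h') h1
  have hp1 : p = (p - 1) + 1 := by omega
  rw [hp1, Finset.sum_range_succ', pow_zero] at hgeom
  obtain ⟨s, hs, hss⟩ := inv_sum_sq c hc hne (fun k => η ^ (k + 1)) hcη (p - 1)
  refine inv_not_sq_neg_one c h2 hc hne s hs ?_
  rw [hss]
  simp only [hηη]
  exact eq_neg_of_add_eq_zero_left hgeom

/-- **mini Artin–Schreier**: an involution `c ≠ 1` inverts every root of unity of odd order. -/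
theorem inv_map_root (h2 : (2 : F) ≠ 0) (hc : ∀ x, c (c x) = x) (hne : ∃ x, c x ≠ x)
    (p : ℕ) (hp : p % 2 = 1) (ζ : F) (hζ : ζ ^ p = 1) : c ζ = ζ⁻¹ := by
  have h := inv_fixed_root_eq_one c h2 hc hne p hp (ζ * c ζ)
    (by rw [mul_pow, ← map_pow, hζ, map_one, mul_one])
    (by rw [map_mul, hc, mul_comm])
  exact eq_inv_of_mul_eq_one_right h

end Core

end Fermat.Agent.H73.S58
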