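/-
P-S58 row 1103 (S58-INV), helper73:
`involution : Fermat.Agent.H51.S58.InvolutionStatement`
(every involution `c ≠ 1` of `ℚ̄` inverts the roots of unity of odd prime order).
-/
import Fermat.Agent.H73.S58.InvolutionCore
import Fermat.Agent.H51.S58.Interfaces

set_option autoImplicit false

namespace Fermat.Agent.H73.S58

/-- **Row 1103 (S58-INV).** -/
theorem involution : Fermat.Agent.H51.S58.InvolutionStatement := by
  intro c hcc hc1 p hp hp2 ζ hζ
  have hc : ∀ x, (c : AlgebraicClosure ℚ ≃+* AlgebraicClosure ℚ) (c x) = x := by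
    intro x
    have h := congrArg (fun g : Fermat.Agent.H51.S58.GQ => g x) hcc
    exact h
  have hne : ∃ x, (c : AlgebraicClosure ℚ ≃+* AlgebraicClosure ℚ) x ≠ x := by
    by_contra h
    push Not at h
    exact hc1 (AlgEquiv.ext h)
  have hodd : p % 2 = 1 := by
    rcases hp.eq_two_or_odd with h | h
    · exact absurd h hp2
    · exact h
  exact inv_map_root (c : AlgebraicClosure ℚ ≃+* AlgebraicClosure ℚ) two_ne_zero hc hne p hodd ζ hζ

end Fermat.Agent.H73.S58
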